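/-
S16 / (L1)-THETA-MOD (helper56), part (P0): one-dimensional Gaussian sums with real characteristics.
Uniform summability bounds and the inversion formula, from Mathlib's
`Complex.tsum_exp_neg_quadratic`.
-/
import Mathlib

set_option autoImplicit false

namespace Fermat.Agent.S16.Theta56.Gauss1

open Complex Real

/-- summability of `exp (-c n²)` over `ℤ` -/
theorem summable_exp_neg_sq {c : ℝ} (hc : 0 < c) :
    Summable (fun n : ℤ => Real.exp (-c * (n : ℝ) ^ 2)) := by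
  have h := (summable_jacobiTheta₂_term_iff 0 (I * (c / π : ℝ))).mpr (by
    simp only [mul_im, I_re, I_im, ofReal_re, ofReal_im, zero_mul, one_mul, zero_add]
    positivity)
  have h2 := h.norm
  refine h2.congr ?_
  intro n
  rw [norm_jacobiTheta₂_term]
  congr 1
  simp only [mul_im, I_re, I_im, ofReal_re, ofReal_im, one_mul, zero_add, zero_im,
    mul_zero, sub_zero]
  field_simp

theorem sq_lower {n : ℝ} {s : ℝ} (hs0 : 0 ≤ s) (hs1 : s ≤ 1) :
    n ^ 2 / 2 - 1 ≤ (n + s) ^ 2 := by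
  nlinarith [sq_nonneg (n + 2 * s), sq_nonneg (n - 2), sq_nonneg (n + 2), sq_nonneg s,
    mul_nonneg hs0 (sub_nonneg.mpr hs1)]

/-- the uniform majorant -/
noncomputable def gaussBound (c : ℝ) : ℝ := Real.exp c * ∑' n : ℤ, Real.exp (-(c / 2) * (n : ℝ) ^ 2)

theorem gauss_term_le {c : ℝ} (hc : 0 < c) {s : ℝ} (hs0 : 0 ≤ s) (hs1 : s ≤ 1) (n : ℤ) :
    Real.exp (-c * ((n : ℝ) + s) ^ 2) ≤ Real.exp c * Real.exp (-(c / 2) * (n : ℝ) ^ 2) := by
  rw [← Real.exp_add]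
  apply Real.exp_le_exp.mpr
  have := sq_lower (n := (n : ℝ)) hs0 hs1
  nlinarith

theorem summable_gauss_fract {c : ℝ} (hc : 0 < c) {s : ℝ} (hs0 : 0 ≤ s) (hs1 : s ≤ 1) :
    Summable (fun n : ℤ => Real.exp (-c * ((n : ℝ) + s) ^ 2)) := by
  refine Summable.of_nonneg_of_le (fun n => (Real.exp_pos _).le) (gauss_term_le hc hs0 hs1) ?_
  exact (summable_exp_neg_sq (by positivity : 0 < c / 2)).mul_left _

theorem tsum_gauss_fract_le {c : ℝ} (hc : 0 < c) {s : ℝ} (hs0 : 0 ≤ s) (hs1 : s ≤ 1) :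
    ∑' n : ℤ, Real.exp (-c * ((n : ℝ) + s) ^ 2) ≤ gaussBound c := by
  unfold gaussBound
  rw [← tsum_mul_left]
  exact (summable_gauss_fract hc hs0 hs1).tsum_le_tsum (gauss_term_le hc hs0 hs1)
    ((summable_exp_neg_sq (by positivity : 0 < c / 2)).mul_left _)

theorem shift_eq (c s : ℝ) :
    (fun n : ℤ => Real.exp (-c * ((n : ℝ) + s) ^ 2)) =
      (fun n : ℤ => Real.exp (-c * ((n : ℝ) + Int.fract s) ^ 2)) ∘ (Equiv.addRight ⌊s⌋) := by
  funext n
  simp only [Function.comp_apply, Equiv.coe_addRight, Int.cast_add]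
  have h : (n : ℝ) + s = (n : ℝ) + (⌊s⌋ : ℝ) + Int.fract s := by
    have := Int.floor_add_fract s
    linarith
  rw [h]

theorem summable_gauss_shift {c : ℝ} (hc : 0 < c) (s : ℝ) :
    Summable (fun n : ℤ => Real.exp (-c * ((n : ℝ) + s) ^ 2)) := by
  rw [shift_eq]
  exact (Equiv.summable_iff _).mpr
    (summable_gauss_fract hc (Int.fract_nonneg s) (Int.fract_lt_one s).le)

theorem tsum_gauss_shift_le {c : ℝ} (hc : 0 < c) (s : ℝ) :
    ∑' n : ℤ, Real.exp (-c * ((n : ℝ) + s) ^ 2) ≤ gaussBound c := by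
  rw [shift_eq]
  have := Equiv.tsum_eq (Equiv.addRight ⌊s⌋)
    (fun n : ℤ => Real.exp (-c * ((n : ℝ) + Int.fract s) ^ 2))
  simp only [Function.comp_def]
  rw [this]
  exact tsum_gauss_fract_le hc (Int.fract_nonneg s) (Int.fract_lt_one s).le

theorem gaussBound_nonneg (c : ℝ) : 0 ≤ gaussBound c := by
  unfold gaussBound
  exact mul_nonneg (Real.exp_pos _).le (tsum_nonneg fun n => (Real.exp_pos _).le)

/-- one-dimensional Gaussian inversion with real characteristics `s` (shift) and `w`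
(frequency). -/
theorem inversion1 {a : ℂ} (ha : 0 < a.re) (s w : ℝ) :
    ∑' n : ℤ, cexp (-π * a * ((n : ℂ) + s) ^ 2 + 2 * π * I * w * n) =
      1 / a ^ (1 / 2 : ℂ) *
        ∑' n : ℤ, cexp (-π / a * ((n : ℂ) - w) ^ 2 + 2 * π * I * s * ((n : ℂ) - w)) := by
  have ha0 : a ≠ 0 := by
    intro h; rw [h] at ha; simp at ha
  set b : ℂ := -a * s + I * w with hb
  have key := Complex.tsum_exp_neg_quadratic ha b
  have h1 : ∀ n : ℤ, cexp (-π * a * ((n : ℂ) + s) ^ 2 + 2 * π * I * w * n) =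
      cexp (-π * a * s ^ 2) * cexp (-π * a * (n : ℂ) ^ 2 + 2 * π * b * n) := by
    intro n
    rw [← Complex.exp_add]
    congr 1
    rw [hb]; ring
  have h2 : ∀ n : ℤ, cexp (-π / a * ((n : ℂ) + I * b) ^ 2) =
      cexp (π * a * s ^ 2) *
        cexp (-π / a * ((n : ℂ) - w) ^ 2 + 2 * π * I * s * ((n : ℂ) - w)) := by
    intro n
    rw [← Complex.exp_add]
    congr 1
    have e1 : ((n : ℂ) + I * b) ^ 2 =
        ((n : ℂ) - w) ^ 2 - 2 * I * a * s * ((n : ℂ) - w) - a ^ 2 * s ^ 2 := by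
      rw [hb]
      linear_combination
        (a ^ 2 * s ^ 2 + w ^ 2 * (I ^ 2 - 1) + 2 * n * w - 2 * I * a * s * w) * I_sq
    rw [e1]
    field_simp
    ring
  calc ∑' n : ℤ, cexp (-π * a * ((n : ℂ) + s) ^ 2 + 2 * π * I * w * n)
      = ∑' n : ℤ, cexp (-π * a * s ^ 2) * cexp (-π * a * (n : ℂ) ^ 2 + 2 * π * b * n) :=
        tsum_congr h1
    _ = cexp (-π * a * s ^ 2) * ∑' n : ℤ, cexp (-π * a * (n : ℂ) ^ 2 + 2 * π * b * n) :=
        tsum_mul_left
    _ = cexp (-π * a * s ^ 2) * (1 / a ^ (1 / 2 : ℂ) *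
          ∑' n : ℤ, cexp (-π / a * ((n : ℂ) + I * b) ^ 2)) := by rw [key]
    _ = cexp (-π * a * s ^ 2) * (1 / a ^ (1 / 2 : ℂ) * ∑' n : ℤ, cexp (π * a * s ^ 2) *
          cexp (-π / a * ((n : ℂ) - w) ^ 2 + 2 * π * I * s * ((n : ℂ) - w))) := by
        rw [tsum_congr h2]
    _ = cexp (-π * a * s ^ 2) * (1 / a ^ (1 / 2 : ℂ) * (cexp (π * a * s ^ 2) * ∑' n : ℤ,
          cexp (-π / a * ((n : ℂ) - w) ^ 2 + 2 * π * I * s * ((n : ℂ) - w)))) := by
        rw [tsum_mul_left]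
    _ = (cexp (-π * a * s ^ 2) * cexp (π * a * s ^ 2)) * (1 / a ^ (1 / 2 : ℂ) * ∑' n : ℤ,
          cexp (-π / a * ((n : ℂ) - w) ^ 2 + 2 * π * I * s * ((n : ℂ) - w))) := by ring
    _ = _ := by
        rw [← Complex.exp_add]
        have : -π * a * s ^ 2 + π * a * s ^ 2 = (0 : ℂ) := by ring
        rw [this, Complex.exp_zero, one_mul]

end Fermat.Agent.S16.Theta56.Gauss1
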