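/-
S16 / (L1)-THETA-MOD (helper56): INTERFACE of package (P) = n-dimensional Gaussian Poisson
summation / theta inversion with real characteristics.  Only statements (as `Prop`s) live here,
so that consumers ((A-S), (A-T), assembly) can write against them before the proofs land.
The proofs are in `Fermat.Agent.S16.Theta56.GaussN` / `GaussMat`.
-/
import Mathlib

set_option autoImplicit false

namespace Fermat.Agent.S16.Theta56.Iface

open Complex Real Matrix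

/-- cast an integer vector to a real vector -/
def toR {n : ℕ} (x : Fin n → ℤ) : Fin n → ℝ := fun i => (x i : ℝ)

@[simp] theorem toR_apply {n : ℕ} (x : Fin n → ℤ) (i : Fin n) : toR x i = (x i : ℝ) := rfl

/-- the real quadratic form `uᵀ A u` -/
def quadR {n : ℕ} (A : Matrix (Fin n) (Fin n) ℝ) (u : Fin n → ℝ) : ℝ := u ⬝ᵥ A *ᵥ u

/-- primal term `exp (-π a (x+v)ᵀA(x+v) + 2π i w·x)` -/
noncomputable def primal {n : ℕ} (A : Matrix (Fin n) (Fin n) ℝ) (a : ℂ) (v w : Fin n → ℝ)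
    (x : Fin n → ℤ) : ℂ :=
  cexp (-π * a * ((quadR A (toR x + v) : ℝ) : ℂ) + 2 * π * I * ((w ⬝ᵥ toR x : ℝ) : ℂ))

/-- dual term `exp (-(π/a) (ξ-w)ᵀA⁻¹(ξ-w) + 2π i v·(ξ-w))` -/
noncomputable def dual {n : ℕ} (A : Matrix (Fin n) (Fin n) ℝ) (a : ℂ) (v w : Fin n → ℝ)
    (ξ : Fin n → ℤ) : ℂ :=
  cexp (-π / a * ((quadR A⁻¹ (toR ξ - w) : ℝ) : ℂ) + 2 * π * I * ((v ⬝ᵥ (toR ξ - w) : ℝ) : ℂ))

/-- **(P)** Gaussian Poisson summation on `ℤⁿ` for a positive definite real matrix, `Re a > 0`,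
real characteristics `v`, `w`. -/
def PoissonStmt (n : ℕ) : Prop :=
  ∀ A : Matrix (Fin n) (Fin n) ℝ, A.PosDef → ∀ a : ℂ, 0 < a.re → ∀ v w : Fin n → ℝ,
    Summable (fun x => ‖primal A a v w x‖) ∧ Summable (fun ξ => ‖dual A a v w ξ‖) ∧
    ∑' x : Fin n → ℤ, primal A a v w x =
      ((1 / Real.sqrt A.det : ℝ) : ℂ) * (1 / a ^ (1 / 2 : ℂ)) ^ n *
        ∑' ξ : Fin n → ℤ, dual A a v w ξ

/-- **(S4)** the inversion law for quaternary theta series with characteristic `v`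
in the upper half plane variable: `θ_{A,v}(-1/z) = -(z²/√det A) Σ_ξ e^{π i z ξᵀA⁻¹ξ + 2π i v·ξ}`. -/
def SLawStmt : Prop :=
  ∀ A : Matrix (Fin 4) (Fin 4) ℝ, A.PosDef → ∀ (v : Fin 4 → ℝ) (z : ℂ), 0 < z.im →
    Summable (fun x : Fin 4 → ℤ =>
      ‖cexp (π * I * (-1 / z) * ((quadR A (toR x + v) : ℝ) : ℂ))‖) ∧
    Summable (fun ξ : Fin 4 → ℤ =>
      ‖cexp (π * I * z * ((quadR A⁻¹ (toR ξ) : ℝ) : ℂ) +
        2 * π * I * ((v ⬝ᵥ toR ξ : ℝ) : ℂ))‖) ∧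
    ∑' x : Fin 4 → ℤ, cexp (π * I * (-1 / z) * ((quadR A (toR x + v) : ℝ) : ℂ)) =
      -(z ^ 2 / ((Real.sqrt A.det : ℝ) : ℂ)) *
        ∑' ξ : Fin 4 → ℤ, cexp (π * I * z * ((quadR A⁻¹ (toR ξ) : ℝ) : ℂ) +
          2 * π * I * ((v ⬝ᵥ toR ξ : ℝ) : ℂ))

/-- `(P)` for `n = 4` implies `(S4)`. -/
theorem sLaw_of_poisson (h : PoissonStmt 4) : SLawStmt := by
  intro A hA v z hz
  have hz0 : z ≠ 0 := by
    intro h0; rw [h0] at hz; simp at hz
  have ha : 0 < (I / z).re := by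
    rw [Complex.div_re]
    simp only [Complex.I_re, Complex.I_im, zero_mul, one_mul]
    have : 0 < Complex.normSq z := Complex.normSq_pos.mpr hz0
    positivity
  obtain ⟨h1, h2, h3⟩ := h A hA (I / z) ha v 0
  have e1 : ∀ x : Fin 4 → ℤ, primal A (I / z) v 0 x =
      cexp (π * I * (-1 / z) * ((quadR A (toR x + v) : ℝ) : ℂ)) := by
    intro x
    unfold primal
    congr 1
    simp only [zero_dotProduct, Complex.ofReal_zero, mul_zero, add_zero]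
    ring
  have e2 : ∀ ξ : Fin 4 → ℤ, dual A (I / z) v 0 ξ =
      cexp (π * I * z * ((quadR A⁻¹ (toR ξ) : ℝ) : ℂ) +
        2 * π * I * ((v ⬝ᵥ toR ξ : ℝ) : ℂ)) := by
    intro ξ
    unfold dual
    simp only [sub_zero]
    congr 2
    have : (π : ℂ) / (I / z) = -(π * I * z) := by
      field_simp
      rw [Complex.I_sq]; ring
    rw [neg_div, this]; ring
  simp only [e1] at h1 h3
  simp only [e2] at h2 h3
  refine ⟨h1, h2, ?_⟩
  rw [h3]
  congr 1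
  have hsq : ((I / z) ^ (1 / 2 : ℂ)) ^ 2 = I / z := by
    simp
  have hne : (I / z) ^ (1 / 2 : ℂ) ≠ 0 := by
    intro h0; rw [h0] at hsq
    have : I / z ≠ 0 := div_ne_zero Complex.I_ne_zero hz0
    exact this (by rw [← hsq]; norm_num)
  have h4 : (1 / (I / z) ^ (1 / 2 : ℂ)) ^ 4 = -(z ^ 2) := by
    have : (1 / (I / z) ^ (1 / 2 : ℂ)) ^ 4 = 1 / ((((I / z) ^ (1 / 2 : ℂ)) ^ 2) ^ 2) := by
      rw [_root_.one_div_pow]; ring
    rw [this, hsq, div_pow, Complex.I_sq]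
    field_simp
  rw [h4]
  push_cast
  have hdet : (0 : ℝ) < A.det := hA.det_pos
  have hs : ((Real.sqrt A.det : ℝ) : ℂ) ≠ 0 := by
    exact_mod_cast (Real.sqrt_pos.mpr hdet).ne'
  field_simp

end Fermat.Agent.S16.Theta56.Iface
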