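/-
S16 / (L1)-THETA-MOD (helper56), part (P): n-dimensional Gaussian theta inversion with real
characteristics, by induction on the number of variables ("triangular" presentation
`Q (x₀, x') = d (x₀ + l · x')² + Q' x'`).  This file: the abstract induction step.
-/
import Mathlib
import Fermat.Agent.S16.Theta56.Gauss1
import Fermat.Agent.S16.Theta56.Iface

set_option autoImplicit false

namespace Fermat.Agent.S16.Theta56.GaussN

open Complex Real Matrix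
open Fermat.Agent.S16.Theta56.Gauss1
open Fermat.Agent.S16.Theta56.Iface

/-! ### general summation lemmas -/

theorem prod_bound {α β : Type*} (f : α × β → ℝ) (hf0 : 0 ≤ f) (g : α → ℝ)
    (hfib : ∀ a, Summable (fun b => f (a, b))) (hle : ∀ a, ∑' b, f (a, b) ≤ g a)
    (hg : Summable g) : Summable f ∧ ∑' p, f p ≤ ∑' a, g a := by
  have hsum : Summable f := by
    rw [summable_prod_of_nonneg hf0]
    exact ⟨hfib, Summable.of_nonneg_of_le (fun x => tsum_nonneg fun n => hf0 _) hle hg⟩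
  refine ⟨hsum, ?_⟩
  rw [hsum.tsum_prod' hfib]
  exact Summable.tsum_le_tsum hle ((summable_prod_of_nonneg hf0).mp hsum).2 hg

theorem prod_bound' {α β : Type*} (f : α × β → ℝ) (hf0 : 0 ≤ f) (g : β → ℝ)
    (hfib : ∀ b, Summable (fun a => f (a, b))) (hle : ∀ b, ∑' a, f (a, b) ≤ g b)
    (hg : Summable g) : Summable f ∧ ∑' p, f p ≤ ∑' b, g b := by
  have h := prod_bound (fun q : β × α => f (q.2, q.1)) (fun q => hf0 _) g hfib hle hg
  have hcomm : f = (fun q : β × α => f (q.2, q.1)) ∘ (Equiv.prodComm α β) := by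
    funext p; rfl
  constructor
  · rw [hcomm]; exact (Equiv.summable_iff _).mpr h.1
  · have h1 : ∑' p : α × β, f p = ∑' q : β × α, f (q.2, q.1) := by
      conv_lhs => rw [hcomm]
      exact (Equiv.prodComm α β).tsum_eq (fun q : β × α => f (q.2, q.1))
    rw [h1]; exact h.2

theorem tsum_prod_swap {α β : Type*} (F : α × β → ℂ) (hF : Summable F) :
    ∑' p, F p = ∑' b, ∑' a, F (a, b) := by
  rw [hF.tsum_prod]
  exact (Summable.tsum_comm (f := fun a b => F (a, b)) hF).symm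

/-! ### vectors: head / tail bookkeeping -/

theorem toR_cons_zero {n : ℕ} (m : ℤ) (x : Fin n → ℤ) :
    toR (Fin.cons m x : Fin (n + 1) → ℤ) 0 = (m : ℝ) := by
  simp [toR]

theorem toR_cons_tail {n : ℕ} (m : ℤ) (x : Fin n → ℤ) :
    Fin.tail (toR (Fin.cons m x : Fin (n + 1) → ℤ)) = toR x := by
  funext i; simp [toR, Fin.tail]

theorem tail_add {n : ℕ} (u v : Fin (n + 1) → ℝ) :
    Fin.tail (u + v) = Fin.tail u + Fin.tail v := rfl

theorem tail_sub {n : ℕ} (u v : Fin (n + 1) → ℝ) :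
    Fin.tail (u - v) = Fin.tail u - Fin.tail v := rfl

theorem dot_succ {n : ℕ} (u v : Fin (n + 1) → ℝ) :
    u ⬝ᵥ v = u 0 * v 0 + Fin.tail u ⬝ᵥ Fin.tail v := by
  simp [dotProduct, Fin.sum_univ_succ, Fin.tail]

/-! ### terms -/

/-- primal term -/
noncomputable def termP {n : ℕ} (Q : (Fin n → ℝ) → ℝ) (a : ℂ) (v w : Fin n → ℝ)
    (x : Fin n → ℤ) : ℂ :=
  cexp (-π * a * ((Q (toR x + v) : ℝ) : ℂ) + 2 * π * I * ((w ⬝ᵥ toR x : ℝ) : ℂ))

/-- dual term -/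
noncomputable def termD {n : ℕ} (Qs : (Fin n → ℝ) → ℝ) (a : ℂ) (v w : Fin n → ℝ)
    (ξ : Fin n → ℤ) : ℂ :=
  cexp (-π / a * ((Qs (toR ξ - w) : ℝ) : ℂ) + 2 * π * I * ((v ⬝ᵥ (toR ξ - w) : ℝ) : ℂ))

theorem norm_cexp_aux (z : ℂ) (r t : ℝ) :
    ‖cexp (z * (r : ℂ) + 2 * π * I * (t : ℂ))‖ = Real.exp (z.re * r) := by
  rw [Complex.norm_exp]
  congr 1
  simp [mul_re]

theorem norm_termP {n : ℕ} (Q : (Fin n → ℝ) → ℝ) (a : ℂ) (v w : Fin n → ℝ) (x : Fin n → ℤ) :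
    ‖termP Q a v w x‖ = Real.exp (-(π * a.re) * Q (toR x + v)) := by
  unfold termP
  rw [norm_cexp_aux]
  congr 1
  simp [mul_re]

theorem norm_termD {n : ℕ} (Qs : (Fin n → ℝ) → ℝ) (a : ℂ) (v w : Fin n → ℝ) (ξ : Fin n → ℤ) :
    ‖termD Qs a v w ξ‖ = Real.exp (-(π * (a⁻¹).re) * Qs (toR ξ + -w)) := by
  unfold termD
  rw [norm_cexp_aux, sub_eq_add_neg]
  congr 1
  simp [mul_re, div_eq_mul_inv]

theorem inv_re_pos {a : ℂ} (ha : 0 < a.re) : 0 < (a⁻¹).re := by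
  rw [Complex.inv_re]
  have : 0 < Complex.normSq a := by
    rw [Complex.normSq_pos]
    intro h; rw [h] at ha; simp at ha
  positivity

/-- The inductive invariant. -/
structure Good (n : ℕ) (Q Qs : (Fin n → ℝ) → ℝ) (c : ℝ) : Prop where
  c_pos : 0 < c
  bdd : ∀ ε : ℝ, 0 < ε → ∃ C : ℝ, ∀ s : Fin n → ℝ,
    Summable (fun x : Fin n → ℤ => Real.exp (-ε * Q (toR x + s))) ∧
      ∑' x : Fin n → ℤ, Real.exp (-ε * Q (toR x + s)) ≤ C
  bdds : ∀ ε : ℝ, 0 < ε → ∃ C : ℝ, ∀ s : Fin n → ℝ,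
    Summable (fun x : Fin n → ℤ => Real.exp (-ε * Qs (toR x + s))) ∧
      ∑' x : Fin n → ℤ, Real.exp (-ε * Qs (toR x + s)) ≤ C
  inv : ∀ a : ℂ, 0 < a.re → ∀ v w : Fin n → ℝ,
    ∑' x : Fin n → ℤ, termP Q a v w x =
      (c : ℂ) * (1 / a ^ (1 / 2 : ℂ)) ^ n * ∑' ξ : Fin n → ℤ, termD Qs a v w ξ

namespace Good

variable {n : ℕ} {Q Qs : (Fin n → ℝ) → ℝ} {c : ℝ}

theorem summable_norm_termP (h : Good n Q Qs c) {a : ℂ} (ha : 0 < a.re) (v w : Fin n → ℝ) :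
    Summable (fun x => ‖termP Q a v w x‖) := by
  simp only [norm_termP]
  exact ((h.bdd (π * a.re) (by positivity)).choose_spec v).1

theorem summable_norm_termD (h : Good n Q Qs c) {a : ℂ} (ha : 0 < a.re) (v w : Fin n → ℝ) :
    Summable (fun x => ‖termD Qs a v w x‖) := by
  simp only [norm_termD]
  have := inv_re_pos ha
  exact ((h.bdds (π * (a⁻¹).re) (by positivity)).choose_spec (-w)).1

theorem summable_termP (h : Good n Q Qs c) {a : ℂ} (ha : 0 < a.re) (v w : Fin n → ℝ) :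
    Summable (termP Q a v w) := (h.summable_norm_termP ha v w).of_norm

theorem summable_termD (h : Good n Q Qs c) {a : ℂ} (ha : 0 < a.re) (v w : Fin n → ℝ) :
    Summable (termD Qs a v w) := (h.summable_norm_termD ha v w).of_norm

end Good

/-- base case -/
theorem good_zero : Good 0 (fun _ => 0) (fun _ => 0) 1 where
  c_pos := one_pos
  bdd := fun ε _ => ⟨1, fun s => ⟨(hasSum_fintype _).summable, by simp [tsum_fintype]⟩⟩
  bdds := fun ε _ => ⟨1, fun s => ⟨(hasSum_fintype _).summable, by simp [tsum_fintype]⟩⟩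
  inv := by
    intro a _ v w
    simp [termP, termD, tsum_fintype]

/-! ### the extension step: bounds -/

theorem summable_cons_iff {n : ℕ} {E : Type*} [AddCommMonoid E] [TopologicalSpace E]
    (F : (Fin (n + 1) → ℤ) → E) :
    Summable (fun p : ℤ × (Fin n → ℤ) => F (Fin.cons p.1 p.2)) ↔ Summable F :=
  (Fin.consEquiv (fun _ : Fin (n + 1) => ℤ)).summable_iff (f := F)

theorem tsum_cons {n : ℕ} {E : Type*} [AddCommMonoid E] [TopologicalSpace E]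
    (F : (Fin (n + 1) → ℤ) → E) :
    ∑' p : ℤ × (Fin n → ℤ), F (Fin.cons p.1 p.2) = ∑' y, F y :=
  (Fin.consEquiv (fun _ : Fin (n + 1) => ℤ)).tsum_eq F

/-- extended primal form -/
def extQ {n : ℕ} (d : ℝ) (l : Fin n → ℝ) (Q : (Fin n → ℝ) → ℝ) (y : Fin (n + 1) → ℝ) : ℝ :=
  d * (y 0 + l ⬝ᵥ Fin.tail y) ^ 2 + Q (Fin.tail y)

/-- extended dual form -/
noncomputable def extQs {n : ℕ} (d : ℝ) (l : Fin n → ℝ) (Qs : (Fin n → ℝ) → ℝ) (η : Fin (n + 1) → ℝ) : ℝ :=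
  (η 0) ^ 2 / d + Qs (Fin.tail η - η 0 • l)

theorem extQ_cons {n : ℕ} (d : ℝ) (l : Fin n → ℝ) (Q : (Fin n → ℝ) → ℝ) (m : ℤ)
    (x : Fin n → ℤ) (s : Fin (n + 1) → ℝ) :
    extQ d l Q (toR (Fin.cons m x : Fin (n + 1) → ℤ) + s) =
      d * ((m : ℝ) + (s 0 + l ⬝ᵥ (toR x + Fin.tail s))) ^ 2 + Q (toR x + Fin.tail s) := by
  unfold extQ
  rw [tail_add, toR_cons_tail, Pi.add_apply, toR_cons_zero]
  ring

theorem extQs_cons {n : ℕ} (d : ℝ) (l : Fin n → ℝ) (Qs : (Fin n → ℝ) → ℝ) (m : ℤ)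
    (x : Fin n → ℤ) (s : Fin (n + 1) → ℝ) :
    extQs d l Qs (toR (Fin.cons m x : Fin (n + 1) → ℤ) + s) =
      ((m : ℝ) + s 0) ^ 2 / d + Qs (toR x + (Fin.tail s - ((m : ℝ) + s 0) • l)) := by
  unfold extQs
  rw [tail_add, toR_cons_tail, Pi.add_apply, toR_cons_zero, add_sub_assoc]

theorem bdd_ext {n : ℕ} {Q : (Fin n → ℝ) → ℝ} {d : ℝ} (hd : 0 < d) (l : Fin n → ℝ)
    (hQ : ∀ ε : ℝ, 0 < ε → ∃ C : ℝ, ∀ s : Fin n → ℝ,
      Summable (fun x : Fin n → ℤ => Real.exp (-ε * Q (toR x + s))) ∧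
        ∑' x : Fin n → ℤ, Real.exp (-ε * Q (toR x + s)) ≤ C) :
    ∀ ε : ℝ, 0 < ε → ∃ C : ℝ, ∀ s : Fin (n + 1) → ℝ,
      Summable (fun y : Fin (n + 1) → ℤ => Real.exp (-ε * extQ d l Q (toR y + s))) ∧
        ∑' y : Fin (n + 1) → ℤ, Real.exp (-ε * extQ d l Q (toR y + s)) ≤ C := by
  intro ε hε
  obtain ⟨C', hC'⟩ := hQ ε hε
  have hεd : 0 < ε * d := by positivity
  refine ⟨gaussBound (ε * d) * C', fun s => ?_⟩
  obtain ⟨hu, huC⟩ := hC' (Fin.tail s)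
  have hf : ∀ (m : ℤ) (x : Fin n → ℤ),
      Real.exp (-ε * extQ d l Q (toR (Fin.cons m x : Fin (n + 1) → ℤ) + s)) =
        Real.exp (-(ε * d) * ((m : ℝ) + (s 0 + l ⬝ᵥ (toR x + Fin.tail s))) ^ 2) *
          Real.exp (-ε * Q (toR x + Fin.tail s)) := by
    intro m x
    rw [extQ_cons, ← Real.exp_add]
    congr 1; ring
  have key := prod_bound'
    (fun p : ℤ × (Fin n → ℤ) =>
      Real.exp (-ε * extQ d l Q (toR (Fin.cons p.1 p.2 : Fin (n + 1) → ℤ) + s)))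
    (fun p => (Real.exp_pos _).le)
    (fun x => gaussBound (ε * d) * Real.exp (-ε * Q (toR x + Fin.tail s)))
    (fun x => by
      simp only [hf]
      exact (summable_gauss_shift hεd _).mul_right _)
    (fun x => by
      simp only [hf]
      rw [tsum_mul_right]
      exact mul_le_mul_of_nonneg_right (tsum_gauss_shift_le hεd _) (Real.exp_pos _).le)
    (hu.mul_left _)
  rw [tsum_mul_left] at key
  refine ⟨(summable_cons_iff _).mp key.1, ?_⟩
  rw [← tsum_cons]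
  exact key.2.trans (mul_le_mul_of_nonneg_left huC (gaussBound_nonneg _))

theorem bdds_ext {n : ℕ} {Qs : (Fin n → ℝ) → ℝ} {d : ℝ} (hd : 0 < d) (l : Fin n → ℝ)
    (hQ : ∀ ε : ℝ, 0 < ε → ∃ C : ℝ, ∀ s : Fin n → ℝ,
      Summable (fun x : Fin n → ℤ => Real.exp (-ε * Qs (toR x + s))) ∧
        ∑' x : Fin n → ℤ, Real.exp (-ε * Qs (toR x + s)) ≤ C) :
    ∀ ε : ℝ, 0 < ε → ∃ C : ℝ, ∀ s : Fin (n + 1) → ℝ,
      Summable (fun y : Fin (n + 1) → ℤ => Real.exp (-ε * extQs d l Qs (toR y + s))) ∧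
        ∑' y : Fin (n + 1) → ℤ, Real.exp (-ε * extQs d l Qs (toR y + s)) ≤ C := by
  intro ε hε
  obtain ⟨C', hC'⟩ := hQ ε hε
  have hεd : 0 < ε / d := by positivity
  have hC'0 : 0 ≤ C' := by
    obtain ⟨_, h2⟩ := hC' 0
    exact le_trans (tsum_nonneg fun x => (Real.exp_pos _).le) h2
  refine ⟨C' * gaussBound (ε / d), fun s => ?_⟩
  have hf : ∀ (m : ℤ) (x : Fin n → ℤ),
      Real.exp (-ε * extQs d l Qs (toR (Fin.cons m x : Fin (n + 1) → ℤ) + s)) =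
        Real.exp (-(ε / d) * ((m : ℝ) + s 0) ^ 2) *
          Real.exp (-ε * Qs (toR x + (Fin.tail s - ((m : ℝ) + s 0) • l))) := by
    intro m x
    rw [extQs_cons, ← Real.exp_add]
    congr 1; ring
  have key := prod_bound
    (fun p : ℤ × (Fin n → ℤ) =>
      Real.exp (-ε * extQs d l Qs (toR (Fin.cons p.1 p.2 : Fin (n + 1) → ℤ) + s)))
    (fun p => (Real.exp_pos _).le)
    (fun m => C' * Real.exp (-(ε / d) * ((m : ℝ) + s 0) ^ 2))
    (fun m => by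
      simp only [hf]
      exact (hC' _).1.mul_left _)
    (fun m => by
      simp only [hf]
      rw [tsum_mul_left, mul_comm]
      exact mul_le_mul_of_nonneg_right (hC' _).2 (Real.exp_pos _).le)
    ((summable_gauss_shift hεd _).mul_left _)
  rw [tsum_mul_left] at key
  refine ⟨(summable_cons_iff _).mp key.1, ?_⟩
  rw [← tsum_cons]
  exact key.2.trans (mul_le_mul_of_nonneg_left (tsum_gauss_shift_le hεd _) hC'0)

/-! ### the extension step: inversion -/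

section Step

variable {n : ℕ} (Q Qs : (Fin n → ℝ) → ℝ) (d : ℝ) (l : Fin n → ℝ) (a : ℂ)
  (v w : Fin (n + 1) → ℝ)

/-- (T1) -/
theorem termP_ext_cons (m : ℤ) (x : Fin n → ℤ) :
    termP (extQ d l Q) a v w (Fin.cons m x) =
      cexp (-π * (a * d) * ((m : ℂ) + ((v 0 + l ⬝ᵥ (toR x + Fin.tail v) : ℝ) : ℂ)) ^ 2
        + 2 * π * I * ((w 0 : ℝ) : ℂ) * m) * termP Q a (Fin.tail v) (Fin.tail w) x := by
  unfold termP
  rw [extQ_cons, dot_succ w, toR_cons_zero, toR_cons_tail, ← Complex.exp_add]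
  congr 1
  push_cast
  ring

/-- (T2) -/
theorem termP_mul_dualHead (m : ℤ) (x : Fin n → ℤ) :
    termP Q a (Fin.tail v) (Fin.tail w) x *
      cexp (-π / (a * d) * ((m : ℂ) - ((w 0 : ℝ) : ℂ)) ^ 2 +
        2 * π * I * ((v 0 + l ⬝ᵥ (toR x + Fin.tail v) : ℝ) : ℂ) * ((m : ℂ) - ((w 0 : ℝ) : ℂ))) =
    cexp (-π / (a * d) * ((m : ℂ) - ((w 0 : ℝ) : ℂ)) ^ 2 +
        2 * π * I * ((v 0 + l ⬝ᵥ Fin.tail v : ℝ) : ℂ) * ((m : ℂ) - ((w 0 : ℝ) : ℂ))) *
      termP Q a (Fin.tail v) (Fin.tail w + ((m : ℝ) - w 0) • l) x := by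
  unfold termP
  rw [← Complex.exp_add, ← Complex.exp_add]
  congr 1
  rw [add_dotProduct, smul_dotProduct, dotProduct_add]
  simp only [smul_eq_mul]
  push_cast
  ring

/-- (T3) -/
theorem dualHead_mul_termD (hd : d ≠ 0) (ha : a ≠ 0) (m : ℤ) (ξ : Fin n → ℤ) :
    cexp (-π / (a * d) * ((m : ℂ) - ((w 0 : ℝ) : ℂ)) ^ 2 +
        2 * π * I * ((v 0 + l ⬝ᵥ Fin.tail v : ℝ) : ℂ) * ((m : ℂ) - ((w 0 : ℝ) : ℂ))) *
      termD Qs a (Fin.tail v) (Fin.tail w + ((m : ℝ) - w 0) • l) ξ =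
    termD (extQs d l Qs) a v w (Fin.cons m ξ) := by
  unfold termD
  rw [← Complex.exp_add]
  congr 1
  have h1 : extQs d l Qs (toR (Fin.cons m ξ : Fin (n + 1) → ℤ) - w) =
      ((m : ℝ) - w 0) ^ 2 / d + Qs (toR ξ - (Fin.tail w + ((m : ℝ) - w 0) • l)) := by
    unfold extQs
    rw [tail_sub, toR_cons_tail, Pi.sub_apply, toR_cons_zero, sub_add_eq_sub_sub]
  rw [h1, dot_succ v, tail_sub, toR_cons_tail, Pi.sub_apply, toR_cons_zero,
    sub_add_eq_sub_sub (toR ξ), dotProduct_sub (Fin.tail v), dotProduct_smul,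
    dotProduct_comm l (Fin.tail v)]
  have hd' : (d : ℂ) ≠ 0 := by exact_mod_cast hd
  simp only [smul_eq_mul]
  push_cast
  field_simp
  ring

end Step


theorem cpow_half_mul_real {a : ℂ} (ha : a ≠ 0) {d : ℝ} (hd : 0 < d) :
    (a * d) ^ (1 / 2 : ℂ) = a ^ (1 / 2 : ℂ) * ((Real.sqrt d : ℝ) : ℂ) := by
  have hd0 : (d : ℂ) ≠ 0 := by exact_mod_cast hd.ne'
  rw [Complex.cpow_def_of_ne_zero (mul_ne_zero ha hd0), Complex.cpow_def_of_ne_zero ha,
    Complex.log_mul_ofReal d hd a ha, Real.sqrt_eq_rpow, Complex.ofReal_cpow hd.le,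
    Complex.cpow_def_of_ne_zero hd0, ← Complex.exp_add, Complex.ofReal_log hd.le]
  congr 1
  push_cast
  ring

theorem norm_dualHead (b : ℂ) (m : ℤ) (w0 σ : ℝ) :
    ‖cexp (-π / b * ((m : ℂ) - (w0 : ℂ)) ^ 2 + 2 * π * I * (σ : ℂ) * ((m : ℂ) - (w0 : ℂ)))‖ =
      Real.exp (-(π * (b⁻¹).re) * ((m : ℝ) + -w0) ^ 2) := by
  have : -π / b * ((m : ℂ) - (w0 : ℂ)) ^ 2 + 2 * π * I * (σ : ℂ) * ((m : ℂ) - (w0 : ℂ)) =
      (-π / b) * ((((m : ℝ) + -w0) ^ 2 : ℝ) : ℂ) + 2 * π * I * ((σ * ((m : ℝ) + -w0) : ℝ) : ℂ) := by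
    push_cast; ring
  rw [this, norm_cexp_aux]
  congr 1
  simp [div_eq_mul_inv, mul_re]

/-- the uniform boundedness property -/
def UBdd (n : ℕ) (Q : (Fin n → ℝ) → ℝ) : Prop :=
  ∀ ε : ℝ, 0 < ε → ∃ C : ℝ, ∀ s : Fin n → ℝ,
    Summable (fun x : Fin n → ℤ => Real.exp (-ε * Q (toR x + s))) ∧
      ∑' x : Fin n → ℤ, Real.exp (-ε * Q (toR x + s)) ≤ C

theorem summable_termP_of_bdd {n : ℕ} {Q : (Fin n → ℝ) → ℝ} (h : UBdd n Q) {a : ℂ}
    (ha : 0 < a.re) (v w : Fin n → ℝ) : Summable (termP Q a v w) := by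
  apply Summable.of_norm
  simp only [norm_termP]
  exact ((h (π * a.re) (by positivity)).choose_spec v).1

theorem summable_termD_of_bdd {n : ℕ} {Qs : (Fin n → ℝ) → ℝ} (h : UBdd n Qs) {a : ℂ}
    (ha : 0 < a.re) (v w : Fin n → ℝ) : Summable (termD Qs a v w) := by
  apply Summable.of_norm
  simp only [norm_termD]
  have := inv_re_pos ha
  exact ((h (π * (a⁻¹).re) (by positivity)).choose_spec (-w)).1

theorem inv_ext {n : ℕ} {Q Qs : (Fin n → ℝ) → ℝ} {c : ℝ} (h : Good n Q Qs c) {d : ℝ}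
    (hd : 0 < d) (l : Fin n → ℝ) (a : ℂ) (ha : 0 < a.re) (v w : Fin (n + 1) → ℝ) :
    ∑' y : Fin (n + 1) → ℤ, termP (extQ d l Q) a v w y =
      ((c / Real.sqrt d : ℝ) : ℂ) * (1 / a ^ (1 / 2 : ℂ)) ^ (n + 1) *
        ∑' η : Fin (n + 1) → ℤ, termD (extQs d l Qs) a v w η := by
  have ha0 : a ≠ 0 := by
    intro h0; rw [h0] at ha; simp at ha
  have had : 0 < (a * d).re := by
    simp only [mul_re, ofReal_re, ofReal_im, mul_zero, sub_zero]
    positivity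
  -- summabilities
  have hSP : Summable (fun p : ℤ × (Fin n → ℤ) =>
      termP (extQ d l Q) a v w (Fin.cons p.1 p.2)) :=
    (summable_cons_iff _).mpr (summable_termP_of_bdd (bdd_ext hd l h.bdd) ha v w)
  have hSD : Summable (fun p : ℤ × (Fin n → ℤ) =>
      termD (extQs d l Qs) a v w (Fin.cons p.1 p.2)) :=
    (summable_cons_iff _).mpr (summable_termD_of_bdd (bdds_ext hd l h.bdds) ha v w)
  have hS2 : Summable (fun p : ℤ × (Fin n → ℤ) =>
      termP Q a (Fin.tail v) (Fin.tail w) p.2 *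
        cexp (-π / (a * d) * ((p.1 : ℂ) - ((w 0 : ℝ) : ℂ)) ^ 2 +
          2 * π * I * ((v 0 + l ⬝ᵥ (toR p.2 + Fin.tail v) : ℝ) : ℂ) *
            ((p.1 : ℂ) - ((w 0 : ℝ) : ℂ)))) := by
    apply Summable.of_norm
    simp only [norm_mul, norm_dualHead]
    have h1 : Summable (fun m : ℤ =>
        Real.exp (-(π * ((a * d)⁻¹).re) * ((m : ℝ) + -w 0) ^ 2)) :=
      summable_gauss_shift (by have := inv_re_pos had; positivity) _
    have h2 := h.summable_norm_termP ha (Fin.tail v) (Fin.tail w)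
    refine (Summable.mul_of_nonneg h1 h2 (fun _ => (Real.exp_pos _).le)
      (fun _ => norm_nonneg _)).congr ?_
    intro p; rw [mul_comm]
  calc ∑' y : Fin (n + 1) → ℤ, termP (extQ d l Q) a v w y
      = ∑' p : ℤ × (Fin n → ℤ), termP (extQ d l Q) a v w (Fin.cons p.1 p.2) :=
        (tsum_cons _).symm
    _ = ∑' x : Fin n → ℤ, ∑' m : ℤ, termP (extQ d l Q) a v w (Fin.cons m x) :=
        tsum_prod_swap _ hSP
    _ = ∑' x : Fin n → ℤ, 1 / (a * d) ^ (1 / 2 : ℂ) *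
          ∑' m : ℤ, termP Q a (Fin.tail v) (Fin.tail w) x *
            cexp (-π / (a * d) * ((m : ℂ) - ((w 0 : ℝ) : ℂ)) ^ 2 +
              2 * π * I * ((v 0 + l ⬝ᵥ (toR x + Fin.tail v) : ℝ) : ℂ) *
                ((m : ℂ) - ((w 0 : ℝ) : ℂ))) := by
        refine tsum_congr fun x => ?_
        simp only [termP_ext_cons]
        rw [tsum_mul_right, inversion1 had, tsum_mul_left]
        ring
    _ = 1 / (a * d) ^ (1 / 2 : ℂ) * ∑' m : ℤ, ∑' x : Fin n → ℤ,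
          termP Q a (Fin.tail v) (Fin.tail w) x *
            cexp (-π / (a * d) * ((m : ℂ) - ((w 0 : ℝ) : ℂ)) ^ 2 +
              2 * π * I * ((v 0 + l ⬝ᵥ (toR x + Fin.tail v) : ℝ) : ℂ) *
                ((m : ℂ) - ((w 0 : ℝ) : ℂ))) := by
        rw [tsum_mul_left]
        congr 1
        exact Summable.tsum_comm (f := fun (m : ℤ) (x : Fin n → ℤ) =>
          termP Q a (Fin.tail v) (Fin.tail w) x *
            cexp (-π / (a * d) * ((m : ℂ) - ((w 0 : ℝ) : ℂ)) ^ 2 +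
              2 * π * I * ((v 0 + l ⬝ᵥ (toR x + Fin.tail v) : ℝ) : ℂ) *
                ((m : ℂ) - ((w 0 : ℝ) : ℂ)))) hS2
    _ = 1 / (a * d) ^ (1 / 2 : ℂ) * ∑' m : ℤ, (c : ℂ) * (1 / a ^ (1 / 2 : ℂ)) ^ n *
          ∑' ξ : Fin n → ℤ, termD (extQs d l Qs) a v w (Fin.cons m ξ) := by
        congr 1
        refine tsum_congr fun m => ?_
        simp only [termP_mul_dualHead]
        rw [tsum_mul_left, h.inv a ha, ← mul_assoc, mul_comm _ ((c : ℂ) * _), mul_assoc,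
          ← tsum_mul_left]
        simp only [dualHead_mul_termD Qs d l a v w hd.ne' ha0]
    _ = 1 / (a * d) ^ (1 / 2 : ℂ) * ((c : ℂ) * (1 / a ^ (1 / 2 : ℂ)) ^ n) *
          ∑' p : ℤ × (Fin n → ℤ), termD (extQs d l Qs) a v w (Fin.cons p.1 p.2) := by
        rw [tsum_mul_left, hSD.tsum_prod]
        ring
    _ = _ := by
        rw [tsum_cons, cpow_half_mul_real ha0 hd]
        congr 1
        have hs : ((Real.sqrt d : ℝ) : ℂ) ≠ 0 := by
          exact_mod_cast (Real.sqrt_pos.mpr hd).ne'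
        push_cast
        rw [pow_succ]
        field_simp

theorem Good.step {n : ℕ} {Q Qs : (Fin n → ℝ) → ℝ} {c : ℝ} (h : Good n Q Qs c) {d : ℝ}
    (hd : 0 < d) (l : Fin n → ℝ) :
    Good (n + 1) (extQ d l Q) (extQs d l Qs) (c / Real.sqrt d) where
  c_pos := div_pos h.c_pos (Real.sqrt_pos.mpr hd)
  bdd := bdd_ext hd l h.bdd
  bdds := bdds_ext hd l h.bdds
  inv := fun a ha v w => inv_ext h hd l a ha v w

end Fermat.Agent.S16.Theta56.GaussN
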