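/-
S16 / (L1)-THETA-MOD (helper56), part (P): from the abstract induction step (`GaussN.Good.step`)
to positive definite real matrices, by induction on the size via the Schur complement
`A = [[d, d lᵀ],[d l, A' + d l lᵀ]]`.  Main result: `poisson n : Iface.PoissonStmt n`.
-/
import Mathlib
import Fermat.Agent.S16.Theta56.GaussN

set_option autoImplicit false

namespace Fermat.Agent.S16.Theta56.GaussMat

open Complex Real Matrix
open Fermat.Agent.S16.Theta56.Gauss1
open Fermat.Agent.S16.Theta56.Iface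
open Fermat.Agent.S16.Theta56.GaussN

variable {n : ℕ}

/-! ### quadratic forms of matrices -/

theorem quadR_sub (A B : Matrix (Fin n) (Fin n) ℝ) (u : Fin n → ℝ) :
    quadR (A - B) u = quadR A u - quadR B u := by
  unfold quadR
  rw [sub_mulVec, dotProduct_sub]

theorem quadR_smul (d : ℝ) (A : Matrix (Fin n) (Fin n) ℝ) (u : Fin n → ℝ) :
    quadR (d • A) u = d * quadR A u := by
  unfold quadR
  rw [smul_mulVec, dotProduct_smul, smul_eq_mul]

theorem vecMulVec_mulVec_apply (l u : Fin n → ℝ) (i : Fin n) :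
    (vecMulVec l l *ᵥ u) i = (l ⬝ᵥ u) * l i := by
  show ∑ j, vecMulVec l l i j * u j = (∑ j, l j * u j) * l i
  rw [Finset.sum_mul]
  refine Finset.sum_congr rfl fun j _ => ?_
  rw [vecMulVec_apply]; ring

theorem quadR_vecMulVec (l u : Fin n → ℝ) : quadR (vecMulVec l l) u = (l ⬝ᵥ u) ^ 2 := by
  unfold quadR
  have : vecMulVec l l *ᵥ u = (l ⬝ᵥ u) • l := by
    funext i; rw [vecMulVec_mulVec_apply]; simp
  rw [this, dotProduct_smul, smul_eq_mul, dotProduct_comm u l]
  ring

/-- head/tail decomposition of `A *ᵥ y` : the head -/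
theorem mulVec_zero (A : Matrix (Fin (n + 1)) (Fin (n + 1)) ℝ) (y : Fin (n + 1) → ℝ) :
    (A *ᵥ y) 0 = A 0 0 * y 0 + (fun j : Fin n => A 0 j.succ) ⬝ᵥ Fin.tail y := by
  simp [mulVec, dotProduct, Fin.sum_univ_succ, Fin.tail]

/-- head/tail decomposition of `A *ᵥ y` : the tail -/
theorem mulVec_tail (A : Matrix (Fin (n + 1)) (Fin (n + 1)) ℝ) (y : Fin (n + 1) → ℝ) :
    Fin.tail (A *ᵥ y) =
      y 0 • (fun i : Fin n => A i.succ 0) + A.submatrix Fin.succ Fin.succ *ᵥ Fin.tail y := by
  funext i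
  simp [mulVec, dotProduct, Fin.sum_univ_succ, Fin.tail, mul_comm]

theorem quadR_succ (A : Matrix (Fin (n + 1)) (Fin (n + 1)) ℝ) (y : Fin (n + 1) → ℝ) :
    quadR A y = A 0 0 * (y 0) ^ 2 + y 0 * ((fun j : Fin n => A 0 j.succ) ⬝ᵥ Fin.tail y) +
      y 0 * ((fun i : Fin n => A i.succ 0) ⬝ᵥ Fin.tail y) +
      quadR (A.submatrix Fin.succ Fin.succ) (Fin.tail y) := by
  unfold quadR
  rw [dot_succ y (A *ᵥ y), mulVec_zero, mulVec_tail, dotProduct_add, dotProduct_smul,
    smul_eq_mul, dotProduct_comm (Fin.tail y) (fun i : Fin n => A i.succ 0)]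
  ring

/-! ### the Schur complement data -/

/-- the pivot -/
def piv (A : Matrix (Fin (n + 1)) (Fin (n + 1)) ℝ) : ℝ := A 0 0

/-- the first row divided by the pivot -/
noncomputable def lvec (A : Matrix (Fin (n + 1)) (Fin (n + 1)) ℝ) : Fin n → ℝ :=
  fun j => A 0 j.succ / A 0 0

/-- the Schur complement -/
noncomputable def schur (A : Matrix (Fin (n + 1)) (Fin (n + 1)) ℝ) : Matrix (Fin n) (Fin n) ℝ :=
  A.submatrix Fin.succ Fin.succ - piv A • vecMulVec (lvec A) (lvec A)

theorem schur_apply (A : Matrix (Fin (n + 1)) (Fin (n + 1)) ℝ) (i j : Fin n) :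
    schur A i j = A i.succ j.succ - A 0 0 * (lvec A i * lvec A j) := by
  simp [schur, piv, Matrix.sub_apply, Matrix.smul_apply, vecMulVec_apply]

theorem symm_apply {m : ℕ} {A : Matrix (Fin m) (Fin m) ℝ} (hA : A.IsHermitian) (i j : Fin m) :
    A i j = A j i := by
  have := hA.apply j i
  simpa using this

theorem piv_pos {A : Matrix (Fin (n + 1)) (Fin (n + 1)) ℝ} (hA : A.PosDef) : 0 < piv A :=
  hA.diag_pos

theorem row_eq {A : Matrix (Fin (n + 1)) (Fin (n + 1)) ℝ} (hA : A.PosDef) :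
    (fun j : Fin n => A 0 j.succ) = piv A • lvec A := by
  funext j
  have := (piv_pos hA).ne'
  simp only [lvec, piv, Pi.smul_apply, smul_eq_mul] at *
  field_simp

theorem col_eq {A : Matrix (Fin (n + 1)) (Fin (n + 1)) ℝ} (hA : A.PosDef) :
    (fun i : Fin n => A i.succ 0) = piv A • lvec A := by
  rw [← row_eq hA]
  funext i
  exact symm_apply hA.1 _ _

/-- (a) the primal form in triangular presentation -/
theorem quadR_eq_extQ {A : Matrix (Fin (n + 1)) (Fin (n + 1)) ℝ} (hA : A.PosDef) :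
    quadR A = extQ (piv A) (lvec A) (quadR (schur A)) := by
  funext y
  rw [quadR_succ, row_eq hA, col_eq hA]
  unfold extQ schur
  rw [quadR_sub, quadR_smul, quadR_vecMulVec, smul_dotProduct, smul_eq_mul]
  unfold piv
  ring

/-- (b) the Schur complement is positive definite -/
theorem schur_posDef {A : Matrix (Fin (n + 1)) (Fin (n + 1)) ℝ} (hA : A.PosDef) :
    (schur A).PosDef := by
  refine PosDef.of_dotProduct_mulVec_pos ?_ ?_
  · refine IsHermitian.ext fun i j => ?_
    rw [star_trivial, schur_apply, schur_apply, symm_apply hA.1 j.succ i.succ]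
    ring
  · intro x hx
    have hx' : (Fin.cons (-(lvec A ⬝ᵥ x)) x : Fin (n + 1) → ℝ) ≠ 0 := by
      intro h0
      apply hx
      have := congrArg Fin.tail h0
      rw [Fin.tail_cons] at this
      exact this
    have h1 := hA.dotProduct_mulVec_pos hx'
    have h2 : star (Fin.cons (-(lvec A ⬝ᵥ x)) x : Fin (n + 1) → ℝ) ⬝ᵥ
        (A *ᵥ (Fin.cons (-(lvec A ⬝ᵥ x)) x : Fin (n + 1) → ℝ)) =
        quadR A (Fin.cons (-(lvec A ⬝ᵥ x)) x) := by
      rw [star_trivial]; rfl
    rw [h2, quadR_eq_extQ hA] at h1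
    unfold extQ at h1
    simp only [Fin.cons_zero, Fin.tail_cons, neg_add_cancel, ne_eq, OfNat.ofNat_ne_zero,
      not_false_eq_true, zero_pow, mul_zero, zero_add] at h1
    rw [star_trivial]
    exact h1

theorem inv_mulVec_mulVec {m : ℕ} {A : Matrix (Fin m) (Fin m) ℝ} (hA : A.PosDef)
    (u : Fin m → ℝ) : A⁻¹ *ᵥ (A *ᵥ u) = u := by
  have hdet : IsUnit A.det := (hA.det_pos).ne'.isUnit
  rw [mulVec_mulVec, nonsing_inv_mul _ hdet, one_mulVec]

theorem mulVec_inv_mulVec {m : ℕ} {A : Matrix (Fin m) (Fin m) ℝ} (hA : A.PosDef)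
    (u : Fin m → ℝ) : A *ᵥ (A⁻¹ *ᵥ u) = u := by
  have hdet : IsUnit A.det := (hA.det_pos).ne'.isUnit
  rw [mulVec_mulVec, mul_nonsing_inv _ hdet, one_mulVec]

theorem quadR_inv_mulVec {m : ℕ} {A : Matrix (Fin m) (Fin m) ℝ} (hA : A.PosDef)
    (u : Fin m → ℝ) : quadR A⁻¹ (A *ᵥ u) = quadR A u := by
  unfold quadR
  rw [inv_mulVec_mulVec hA, dotProduct_comm]

/-- (c) the dual form in triangular presentation -/
theorem quadR_inv_eq_extQs {A : Matrix (Fin (n + 1)) (Fin (n + 1)) ℝ} (hA : A.PosDef) :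
    quadR A⁻¹ = extQs (piv A) (lvec A) (quadR (schur A)⁻¹) := by
  funext ξ
  obtain ⟨u, rfl⟩ : ∃ u, ξ = A *ᵥ u := ⟨A⁻¹ *ᵥ ξ, (mulVec_inv_mulVec hA ξ).symm⟩
  rw [quadR_inv_mulVec hA, quadR_eq_extQ hA]
  unfold extQs extQ
  have hd := (piv_pos hA).ne'
  have h0 : (A *ᵥ u) 0 = piv A * (u 0 + lvec A ⬝ᵥ Fin.tail u) := by
    rw [mulVec_zero, row_eq hA, smul_dotProduct, smul_eq_mul]
    unfold piv; ring
  have h1 : Fin.tail (A *ᵥ u) - (A *ᵥ u) 0 • lvec A = schur A *ᵥ Fin.tail u := by
    rw [h0, mulVec_tail, col_eq hA]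
    unfold schur
    rw [sub_mulVec, smul_mulVec]
    funext i
    simp only [Pi.add_apply, Pi.sub_apply, Pi.smul_apply, smul_eq_mul, vecMulVec_mulVec_apply]
    ring
  rw [h1, quadR_inv_mulVec (schur_posDef hA), h0]
  field_simp

/-- (d) the determinant -/
theorem det_eq_piv_mul {A : Matrix (Fin (n + 1)) (Fin (n + 1)) ℝ} (hA : A.PosDef) :
    A.det = piv A * (schur A).det := by
  -- the row-reduced matrix
  set N : Matrix (Fin (n + 1)) (Fin (n + 1)) ℝ :=
    Matrix.of (fun i j => Fin.cases (A 0 j) (fun i' => Fin.cases 0 (fun j' => schur A i' j') j) i)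
    with hN
  have hd : A 0 0 ≠ 0 := (piv_pos hA).ne'
  have h1 : A.det = N.det := by
    refine det_eq_of_forall_row_eq_smul_add_const (Fin.cases 0 (lvec A)) 0 (by simp) ?_
    intro i j
    refine Fin.cases ?_ (fun i' => ?_) i
    · simp [hN]
    · refine Fin.cases ?_ (fun j' => ?_) j
      · simp only [hN, of_apply, Fin.cases_succ, Fin.cases_zero, zero_add]
        rw [symm_apply hA.1 i'.succ 0]
        unfold lvec; field_simp
      · simp only [hN, of_apply, Fin.cases_succ, Fin.cases_zero, schur_apply]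
        unfold lvec; field_simp; ring
  rw [h1, det_succ_column_zero, Fin.sum_univ_succ]
  have h2 : ∀ i : Fin n, N i.succ 0 = 0 := fun i => by simp [hN]
  have h3 : N.submatrix (Fin.succAbove 0) Fin.succ = schur A := by
    ext i j; simp [hN]
  simp only [h2, mul_zero, zero_mul, Finset.sum_const_zero, add_zero, Fin.val_zero, pow_zero,
    one_mul, h3]
  simp [hN, piv]

/-! ### the main induction -/

theorem good_of_posDef : ∀ (n : ℕ) (A : Matrix (Fin n) (Fin n) ℝ), A.PosDef →
    Good n (quadR A) (quadR A⁻¹) (1 / Real.sqrt A.det) := by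
  intro n
  induction n with
  | zero =>
    intro A _
    have h1 : quadR A = fun _ => 0 := by funext u; simp [quadR]
    have h2 : quadR A⁻¹ = fun _ => 0 := by funext u; simp [quadR]
    have h3 : (1 : ℝ) / Real.sqrt A.det = 1 := by simp
    rw [h1, h2, h3]
    exact good_zero
  | succ n ih =>
    intro A hA
    have hS := schur_posDef hA
    have hg := (ih (schur A) hS).step (piv_pos hA) (lvec A)
    rw [← quadR_eq_extQ hA, ← quadR_inv_eq_extQs hA] at hg
    have hc : 1 / Real.sqrt (schur A).det / Real.sqrt (piv A) = 1 / Real.sqrt A.det := by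
      rw [det_eq_piv_mul hA, Real.sqrt_mul (piv_pos hA).le, div_div, mul_comm]
    rw [hc] at hg
    exact hg

/-- **(P)** Gaussian Poisson summation on `ℤⁿ`. -/
theorem poisson (n : ℕ) : PoissonStmt n := by
  intro A hA a ha v w
  have hg := good_of_posDef n A hA
  exact ⟨hg.summable_norm_termP ha v w, hg.summable_norm_termD ha v w, hg.inv a ha v w⟩

/-- **(S4)** the quaternary inversion law. -/
theorem sLaw : SLawStmt := sLaw_of_poisson (poisson 4)

end Fermat.Agent.S16.Theta56.GaussMat
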